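import Fermat.Agent.S16.Defs
import Fermat.Agent.S16.NormInt.Conj
import Fermat.Agent.S23.MF

/-!
# S16 lower bound, Ogg's bound: a small calculus for the expansion at `0` of an abstract toolkit

`ZRel T k f P`: `f` is the function of a modular form of weight `k` on `Γ₀(p)` whose expansion
at the cusp `0` (in the sense of the toolkit `T`) is `P`.
-/

set_option autoImplicit false

namespace Fermat.Agent.S16.LB.Ogg

open CongruenceSubgroup UpperHalfPlane ModularForm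
open scoped MatrixGroups

open Fermat.Agent.S23 Fermat.Agent.S23Converse Fermat.Agent.S16Norm

variable {p : ℕ} {hp : p ≠ 0} (T : Fermat.Agent.S16.CuspZeroData p hp)

/-- `f` is the function of a form of weight `k` on `Γ₀(p)` with expansion `P` at the cusp `0`. -/
def ZRel (k : ℤ) (f : ℍ → ℂ) (P : PowerSeries ℂ) : Prop :=
  ∃ H : ModularForm (Gamma0 p) k, (⇑H : ℍ → ℂ) = f ∧ T.Z k H = P

variable {T}

lemma ZRel.of_form {k : ℤ} (F : ModularForm (Gamma0 p) k) : ZRel T k (⇑F) (T.Z k F) :=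
  ⟨F, rfl, rfl⟩

lemma ZRel.unique {k : ℤ} {f : ℍ → ℂ} {P Q : PowerSeries ℂ} (h₁ : ZRel T k f P)
    (h₂ : ZRel T k f Q) : P = Q := by
  obtain ⟨H₁, hf₁, rfl⟩ := h₁
  obtain ⟨H₂, hf₂, rfl⟩ := h₂
  have : H₁ = H₂ := DFunLike.coe_injective (hf₁.trans hf₂.symm)
  rw [this]

lemma ZRel.cast {k k' : ℤ} (h : k = k') {f : ℍ → ℂ} {P : PowerSeries ℂ} (h₁ : ZRel T k f P) :
    ZRel T k' f P := by
  subst h
  exact h₁

lemma ZRel.congr {k : ℤ} {f g : ℍ → ℂ} {P : PowerSeries ℂ} (h₁ : ZRel T k f P) (h : f = g) :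
    ZRel T k g P := h ▸ h₁

lemma ZRel.mul {k₁ k₂ : ℤ} {f g : ℍ → ℂ} {P Q : PowerSeries ℂ} (h₁ : ZRel T k₁ f P)
    (h₂ : ZRel T k₂ g Q) : ZRel T (k₁ + k₂) (f * g) (P * Q) := by
  obtain ⟨H₁, rfl, rfl⟩ := h₁
  obtain ⟨H₂, rfl, rfl⟩ := h₂
  exact ⟨H₁.mul H₂, rfl, T.Z_mul k₁ k₂ H₁ H₂ (H₁.mul H₂) rfl⟩

lemma ZRel.levelOne {k : ℤ} (E : ModularForm 𝒮ℒ k) :
    ZRel T k (⇑E) (PowerSeries.expand p hp (qExpansion 1 E)) := by
  obtain ⟨G, hG⟩ := IsMF.mono (G0_le_SL p) (IsMF.of E)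
  exact ⟨G, hG, T.Z_levelOne k E G hG⟩

lemma ZRel.one : ZRel T 0 (1 : ℍ → ℂ) 1 := by
  have h := ZRel.levelOne (T := T) (1 : ModularForm 𝒮ℒ 0)
  have h1 : (⇑(1 : ModularForm 𝒮ℒ 0) : ℍ → ℂ) = 1 := rfl
  rw [h1, UpperHalfPlane.qExpansion_one, map_one] at h
  exact h

lemma ZRel.pow {k : ℤ} {f : ℍ → ℂ} {P : PowerSeries ℂ} (h : ZRel T k f P) (n : ℕ) :
    ZRel T (k * n) (f ^ n) (P ^ n) := by
  induction n with
  | zero =>
    simp only [pow_zero]
    exact ZRel.one.cast (by simp)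
  | succ n ih =>
    rw [pow_succ, pow_succ]
    exact (ih.mul h).cast (by push_cast; ring)

/-- Two good functions with the same `q`-expansion are equal. -/
lemma isGood_ext {f g : ℍ → ℂ} (hf : IsGood f) (hg : IsGood g)
    (h : qExpansion 1 f = qExpansion 1 g) : f = g := by
  funext τ
  have h1 := IsGood_hasSum hf τ
  have h2 := IsGood_hasSum hg τ
  rw [h] at h1
  exact h1.unique h2

/-- The expansion at `0` of `Δ(p z)` is `p⁻¹² Δ`. -/
lemma ZRel.dil_discriminant [NeZero p] :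
    ZRel T 12 (dil p ModularForm.discriminant)
      (((p : ℂ) ^ (12 : ℤ))⁻¹ • qExpansion 1 ModularForm.discriminant) := by
  have hΔ : IsMF 𝒮ℒ 12 ModularForm.discriminant := (IsCF.of CuspForm.discriminant).isMF
  obtain ⟨E, hE⟩ := hΔ
  obtain ⟨D, hD⟩ := IsMF.mono (G0_le_SL p) (IsMF.of E)
  have hZD : T.Z 12 D = PowerSeries.expand p hp (qExpansion 1 E) := T.Z_levelOne 12 E D hD
  obtain ⟨F', hF', hZ'⟩ := T.Z_swap 12 (by decide) D
  have hEgood : IsGood (⇑E : ℍ → ℂ) := isGood_of_modularFormClass _root_.one_mem_strictPeriods_SL E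
  have hfun : (⇑F' : ℍ → ℂ) = dil p ModularForm.discriminant := by
    refine isGood_ext (isGood_of_modularFormClass (one_mem_strictPeriods_G0 p) F')
      (isGood_dil hp (hE ▸ hEgood)) ?_
    rw [hF', hZD, qExpansion_dil hp (hE ▸ hEgood), hE]
  refine ⟨F', hfun, ?_⟩
  rw [hZ', hD, hE]

end Fermat.Agent.S16.LB.Ogg
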