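import Fermat.Agent.S16.LB.Defs
import Fermat.Agent.S16.LB.Ogg.ZRel

/-!
# S16 lower bound, Ogg's bound: the root `H` of the modular unit gives a form of weight `12`

If `H` is holomorphic, `Γ₀(p)`-invariant and `H ^ m = Δ(z) / Δ(p z)`, then `F = H · Δ(p ·)` is a
modular form of weight `12` on `Γ₀(p)` (it is bounded at the cusps because
`F ^ m = Δ · Δ(p ·) ^ (m - 1)` is).
-/

set_option autoImplicit false

namespace Fermat.Agent.S16.LB.Ogg

open CongruenceSubgroup UpperHalfPlane ModularForm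
open scoped MatrixGroups Manifold

open Fermat.Agent.S23 Fermat.Agent.S23Converse Fermat.Agent.S16Norm Fermat.Agent.S16

variable {p : ℕ}

/-- `Δ(p ·)` never vanishes. -/
lemma dil_discriminant_ne_zero (p : ℕ) (z : ℍ) : dil p ModularForm.discriminant z ≠ 0 :=
  ModularForm.discriminant_ne_zero _

/-- The identity `(H Δ_p)^m = Δ Δ_p^(m-1)`. -/
lemma root_pow_identity {m : ℕ} (hm : 0 < m) {H : ℍ → ℂ}
    (hpow : ∀ z : ℍ, H z ^ m = drUnit p z) :
    (H * dil p ModularForm.discriminant) ^ m =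
      ModularForm.discriminant * dil p ModularForm.discriminant ^ (m - 1) := by
  funext z
  obtain ⟨n, rfl⟩ : ∃ n, m = n + 1 := ⟨m - 1, by omega⟩
  have hne := dil_discriminant_ne_zero p z
  simp only [Pi.mul_apply, Pi.pow_apply, mul_pow, hpow z, drUnit, Nat.add_sub_cancel]
  rw [dil_apply] at hne ⊢
  field_simp
  ring

/-- Boundedness of an `m`-th root. -/
lemma isBoundedAtImInfty_of_pow {f : ℍ → ℂ} {m : ℕ} (hm : 0 < m)
    (h : IsBoundedAtImInfty (f ^ m)) : IsBoundedAtImInfty f := by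
  rw [UpperHalfPlane.isBoundedAtImInfty_iff] at h ⊢
  obtain ⟨M, A, hMA⟩ := h
  refine ⟨max M 1, A, fun z hz => ?_⟩
  have h1 := hMA z hz
  rw [Pi.pow_apply, norm_pow] at h1
  by_contra hcon
  push Not at hcon
  have h2 : 1 < ‖f z‖ := lt_of_le_of_lt (le_max_right _ _) hcon
  have h3 : ‖f z‖ ≤ ‖f z‖ ^ m := le_self_pow₀ h2.le hm.ne'
  have h4 : M < ‖f z‖ := lt_of_le_of_lt (le_max_left _ _) hcon
  linarith

lemma slash_pow_SL2 (k : ℤ) (γ : SL(2, ℤ)) (f : ℍ → ℂ) (m : ℕ) :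
    (f ∣[k] γ) ^ m = (f ^ m) ∣[k * m] γ := by
  funext z
  simp only [Pi.pow_apply, SL_slash_apply, mul_pow]
  congr 1
  rw [← zpow_natCast, ← zpow_mul]
  congr 1
  ring

/-- The form `F = H · Δ(p ·)` of weight `12`. -/
theorem exists_form_of_root [Fact p.Prime]
    (T : Fermat.Agent.S16.CuspZeroData p (Fact.out : p.Prime).ne_zero)
    (m : ℕ) (hm : 0 < m) (H : ℍ → ℂ) (hH : MDifferentiable 𝓘(ℂ) 𝓘(ℂ) H)
    (hinv : ∀ (γ : Gamma0 p) (z : ℍ), H ((γ : SL(2, ℤ)) • z) = H z)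
    (hpow : ∀ z : ℍ, H z ^ m = drUnit p z) :
    ∃ F : ModularForm (Gamma0 p) 12, (⇑F : ℍ → ℂ) = H * dil p ModularForm.discriminant := by
  haveI : NeZero p := ⟨(Fact.out : p.Prime).ne_zero⟩
  obtain ⟨Dp, hDp, -⟩ := ZRel.dil_discriminant (T := T)
  -- the `m`-th power as a modular form
  have hΔ : IsMF (G0 p) 12 ModularForm.discriminant :=
    IsMF.mono (G0_le_SL p) (IsCF.of CuspForm.discriminant).isMF
  have hG : IsMF (G0 p) (12 + 12 * ((m - 1 : ℕ) : ℤ))
      (ModularForm.discriminant * dil p ModularForm.discriminant ^ (m - 1)) := by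
    have h2 : IsMF (G0 p) 12 (dil p ModularForm.discriminant) := ⟨Dp, hDp⟩
    exact hΔ.mul (h2.pow (m - 1))
  obtain ⟨G, hGf⟩ := hG
  have hk : (12 + 12 * ((m - 1 : ℕ) : ℤ)) = 12 * (m : ℤ) := by
    rw [Nat.cast_sub (by omega)]
    push_cast
    ring
  have hHslash : ∀ γ : SL(2, ℤ), γ ∈ Gamma0 p → H ∣[(0 : ℤ)] γ = H := by
    intro γ hγ
    funext z
    rw [SL_slash_apply]
    simpa using hinv ⟨γ, hγ⟩ z
  refine ⟨{ toFun := H * dil p ModularForm.discriminant
            slash_action_eq' := ?_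
            holo' := ?_
            bdd_at_cusps' := ?_ }, rfl⟩
  · rintro _ ⟨γ, hγ, rfl⟩
    have h1 := ModularForm.mul_slash_SL2 0 12 γ H (dil p ModularForm.discriminant)
    rw [zero_add] at h1
    have h2 : dil p ModularForm.discriminant ∣[(12 : ℤ)] γ = dil p ModularForm.discriminant := by
      rw [← hDp]
      exact SlashInvariantForm.slash_action_eqn Dp _ ⟨γ, hγ, rfl⟩
    show (H * dil p ModularForm.discriminant) ∣[(12 : ℤ)] γ = _
    rw [h1, hHslash γ hγ, h2]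
  · have h2 : MDifferentiable 𝓘(ℂ) 𝓘(ℂ) (dil p ModularForm.discriminant) := by
      rw [← hDp]
      exact ModularFormClass.holo Dp
    exact hH.mul h2
  · intro c hc
    have hc' : IsCusp c 𝒮ℒ := by
      rwa [Subgroup.IsArithmetic.isCusp_iff_isCusp_SL2Z] at hc
    rw [OnePoint.isBoundedAt_iff_forall_SL2Z hc']
    intro γ hγ
    refine isBoundedAtImInfty_of_pow hm ?_
    rw [slash_pow_SL2, root_pow_identity hm hpow, ← hGf, ← hk]
    exact G.bdd_at_cusps' hc _ hγ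

end Fermat.Agent.S16.LB.Ogg
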