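import Mathlib
import Fermat.Agent.S23.FieldAut

/-!
# S16 lower bound, Ogg's bound: `m`-th roots of power series (pure algebra)

* `pow_inj_of_constantCoeff_one`: an `m`-th root with constant term `1` is unique.
* `AutFix P`: the power series `P ∈ ℂ⟦X⟧` is fixed by all ring endomorphisms of `ℂ`
  (equivalently: it has rational coefficients).
* `root_structure`: if `B ^ m = κ • (X ^ (N * m) * W)` with `W` fixed, `W(0) = 1`, `κ ≠ 0`, then
  `B` vanishes to order `N` and `B = c · (rational series)` with `c ^ m = κ`.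
-/

set_option autoImplicit false

namespace Fermat.Agent.S16.LB.Ogg

open PowerSeries

/-- An `m`-th root with constant term `1` is unique. -/
theorem pow_inj_of_constantCoeff_one {A A' : PowerSeries ℂ} {m : ℕ} (hm : 0 < m)
    (h0 : constantCoeff A = 1) (h0' : constantCoeff A' = 1) (h : A ^ m = A' ^ m) : A = A' := by
  have hfac := (Commute.all A A').mul_geom_sum₂ m
  rw [h, sub_self] at hfac
  rcases mul_eq_zero.mp hfac with h1 | h2
  · exact sub_eq_zero.mp h1
  · exfalso
    have hc := congrArg (constantCoeff (R := ℂ)) h2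
    rw [map_sum, map_zero] at hc
    simp only [map_mul, map_pow, h0, h0', one_pow, mul_one, Finset.sum_const, Finset.card_range,
      nsmul_eq_mul] at hc
    have : (m : ℂ) ≠ 0 := Nat.cast_ne_zero.mpr hm.ne'
    exact this hc

/-- `P` is fixed by all ring endomorphisms of `ℂ` acting on the coefficients. -/
def AutFix (P : PowerSeries ℂ) : Prop := ∀ τ : ℂ →+* ℂ, PowerSeries.map τ P = P

namespace AutFix

variable {P Q : PowerSeries ℂ}

lemma one : AutFix (1 : PowerSeries ℂ) := fun _ => map_one _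

lemma X : AutFix (PowerSeries.X : PowerSeries ℂ) := fun τ => PowerSeries.map_X τ

lemma mul (hP : AutFix P) (hQ : AutFix Q) : AutFix (P * Q) := fun τ => by
  rw [map_mul, hP τ, hQ τ]

lemma pow (hP : AutFix P) (n : ℕ) : AutFix (P ^ n) := fun τ => by
  rw [map_pow, hP τ]

lemma add (hP : AutFix P) (hQ : AutFix Q) : AutFix (P + Q) := fun τ => by
  rw [map_add, hP τ, hQ τ]

lemma expand (p : ℕ) (hp : p ≠ 0) (hP : AutFix P) : AutFix (PowerSeries.expand p hp P) :=
  fun τ => by rw [PowerSeries.map_expand, hP τ]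

lemma of_int (P : PowerSeries ℤ) : AutFix (PowerSeries.map (Int.castRingHom ℂ) P) := fun τ => by
  ext n
  simp

/-- The coefficients of a fixed series are rational. -/
lemma coeff_rat (hP : AutFix P) (n : ℕ) : ∃ q : ℚ, (q : ℂ) = coeff n P :=
  Fermat.Agent.S23.FieldAut.exists_rat_of_forall_ringHom_fixed fun τ => by
    have := congrArg (coeff n) (hP τ)
    rwa [PowerSeries.coeff_map] at this

/-- An `m`-th root with constant term `1` of a fixed series is fixed. -/
lemma of_pow {A : PowerSeries ℂ} {m : ℕ} (hm : 0 < m) (h0 : constantCoeff A = 1)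
    (h : AutFix (A ^ m)) : AutFix A := fun τ => by
  refine pow_inj_of_constantCoeff_one hm ?_ h0 ?_
  · rw [← coeff_zero_eq_constantCoeff_apply, PowerSeries.coeff_map,
      coeff_zero_eq_constantCoeff_apply, h0, map_one]
  · rw [← map_pow, h τ]

end AutFix

/-- Structure of an `m`-th root of `κ X^M W`: `m ∣ M`, and with `N = M / m` the root `B` vanishes
to order `N`, has leading coefficient `c` with `c ^ m = κ`, and all its coefficients lie in
`c ℚ`. -/
theorem root_structure {B W : PowerSeries ℂ} {m : ℕ} (hm : 0 < m) (M : ℕ) (κ : ℂ) (hκ : κ ≠ 0)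
    (hW : AutFix W) (hW0 : constantCoeff W = 1)
    (h : B ^ m = κ • (PowerSeries.X ^ M * W)) :
    ∃ (N : ℕ) (c : ℂ), N * m = M ∧ c ^ m = κ ∧ coeff N B = c ∧ (∀ n, n < N → coeff n B = 0) ∧
      ∀ n, ∃ q : ℚ, coeff n B = c * q := by
  -- the order of `B`
  have hordW : W.order = 0 := by
    rw [PowerSeries.order_zero_of_unit]
    exact PowerSeries.isUnit_iff_constantCoeff.mpr (by rw [hW0]; exact isUnit_one)
  have hsmul : κ • (PowerSeries.X ^ M * W) = PowerSeries.C κ * (PowerSeries.X ^ M * W) := by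
    rw [PowerSeries.smul_eq_C_mul]
  have hordC : (PowerSeries.C κ : PowerSeries ℂ).order = 0 := by
    rw [PowerSeries.order_zero_of_unit]
    exact PowerSeries.isUnit_iff_constantCoeff.mpr (by simpa using hκ)
  have hord : (B ^ m).order = (M : ℕ) := by
    rw [h, hsmul, PowerSeries.order_mul, PowerSeries.order_mul, PowerSeries.order_X_pow, hordW,
      hordC]
    simp
  rw [PowerSeries.order_pow] at hord
  have hfin : B.order ≠ ⊤ := by
    intro htop
    rw [htop] at hord
    have h1 : (m • (⊤ : ℕ∞)) = ⊤ := by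
      rw [nsmul_eq_mul]
      exact ENat.mul_top (by exact_mod_cast hm.ne')
    rw [h1] at hord
    exact ENat.natCast_ne_top _ hord.symm
  obtain ⟨N, hN⟩ := ENat.ne_top_iff_exists.mp hfin
  have hBord : B.order = N := hN.symm
  have hNM : N * m = M := by
    rw [hBord] at hord
    have h3 : ((m * N : ℕ) : ℕ∞) = ((M : ℕ) : ℕ∞) := by
      rw [← hord, nsmul_eq_mul]
      push_cast
      rfl
    have h4 : m * N = M := by exact_mod_cast h3
    rw [mul_comm]
    exact h4
  -- factor `B = X^N B₁`
  obtain ⟨B₁, hB₁⟩ : PowerSeries.X ^ N ∣ B := by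
    have := PowerSeries.X_pow_order_dvd (φ := B)
    rwa [hBord, ENat.toNat_natCast] at this
  have hXne : (PowerSeries.X : PowerSeries ℂ) ^ M ≠ 0 := pow_ne_zero _ PowerSeries.X_ne_zero
  have hB₁pow : B₁ ^ m = κ • W := by
    have h1 : PowerSeries.X ^ M * B₁ ^ m = PowerSeries.X ^ M * (κ • W) := by
      rw [mul_smul_comm, ← h, hB₁, mul_pow, ← pow_mul, hNM]
    exact mul_left_cancel₀ hXne h1
  set c := constantCoeff B₁ with hc
  have hcm : c ^ m = κ := by
    have := congrArg (constantCoeff (R := ℂ)) hB₁pow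
    rw [map_pow] at this
    rw [this]
    simp [hW0]
  have hc0 : c ≠ 0 := by
    intro h0
    rw [h0, zero_pow hm.ne'] at hcm
    exact hκ hcm.symm
  -- the normalised root
  set B₀ := c⁻¹ • B₁ with hB₀
  have hB₀0 : constantCoeff B₀ = 1 := by
    rw [hB₀]
    simp [← hc, hc0]
  have hB₀pow : B₀ ^ m = W := by
    rw [hB₀, smul_pow, hB₁pow, smul_smul, inv_pow, hcm, inv_mul_cancel₀ hκ, one_smul]
  have hfix : AutFix B₀ := AutFix.of_pow hm hB₀0 (by rw [hB₀pow]; exact hW)
  have hB₁eq : B₁ = c • B₀ := by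
    rw [hB₀, smul_smul, mul_inv_cancel₀ hc0, one_smul]
  refine ⟨N, c, hNM, hcm, ?_, fun n hn => ?_, fun n => ?_⟩
  · rw [hB₁, PowerSeries.coeff_X_pow_mul', if_pos le_rfl, Nat.sub_self,
      PowerSeries.coeff_zero_eq_constantCoeff_apply]
  · exact PowerSeries.coeff_of_lt_order n (by rw [hBord]; exact_mod_cast hn)
  · rw [hB₁, hB₁eq]
    rcases lt_or_ge n N with hn | hn
    · refine ⟨0, ?_⟩
      rw [PowerSeries.coeff_X_pow_mul', if_neg (by omega)]
      simp
    · obtain ⟨q, hq⟩ := hfix.coeff_rat (n - N)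
      refine ⟨q, ?_⟩
      rw [PowerSeries.coeff_X_pow_mul', if_pos hn, hq]
      simp

end Fermat.Agent.S16.LB.Ogg
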