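import Fermat.Agent.S16.LB.Defs
import Fermat.Agent.S16.LB.Ogg.Root
import Fermat.Agent.S16.LB.Ogg.ZRel
import Fermat.Agent.S16.LB.Ogg.FormH
import Fermat.Agent.S16.ToolkitAlg.Trace
import Fermat.Agent.S16.ToolkitAlg.LevelOne

/-!
# S16 lower bound, Ogg's bound `m ∣ 12`: the proof

`F = H Δ(p·) ∈ M₁₂(Γ₀(p))`, `F^m = Δ Δ(p·)^(m-1)`.  With `A = qExp F`, `B = Z F`:
`A^m = δ (δ∘X^p)^(m-1)`, `B^m = (δ∘X^p) (p⁻¹² δ)^(m-1)`, so `A ∈ ζ ℚ⟦X⟧`, `B ∈ c ℚ⟦X⟧`, `ζ^m = 1`,
`c^m = p^(-12(m-1))`, and both vanish to order `≥ 2` resp. `≥ 1` if `m ≥ 2`.  The trace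
`e = A + p U_p B ∈ M₁₂(SL₂ℤ)` has `e₀ = 0`, `e₁ = p b_p ∈ c ℚ`, hence all its coefficients are in
`c ℚ`, hence so are those of `A`: `ζ ∈ c ℚ`.  So `p^(12(m-1))` is an `m`-th power in `ℚ`.
-/

set_option autoImplicit false

namespace Fermat.Agent.S16.LB.Ogg

open CongruenceSubgroup UpperHalfPlane ModularForm ModularCurve
open scoped MatrixGroups Manifold

open Fermat.Agent.S23 Fermat.Agent.S23Converse Fermat.Agent.S16Norm Fermat.Agent.S16

/-- The unit part of the `q`-expansion of `Δ`, over `ℂ`. -/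
noncomputable def uC : PowerSeries ℂ := PowerSeries.map (Int.castRingHom ℂ) dedekindEtaUnit

lemma constantCoeff_uC : PowerSeries.constantCoeff uC = 1 := by
  rw [uC, ← PowerSeries.coeff_zero_eq_constantCoeff_apply, PowerSeries.coeff_map,
    PowerSeries.coeff_zero_eq_constantCoeff_apply, constantCoeff_dedekindEtaUnit]
  simp

lemma qExp_discriminant : qExpansion 1 ModularForm.discriminant = PowerSeries.X * uC :=
  Fermat.Agent.S28.QExp.qExpansion_discriminant

lemma isGood_discriminant : IsGood ModularForm.discriminant :=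
  isGood_of_modularFormClass _root_.one_mem_strictPeriods_SL CuspForm.discriminant

/-- The additive subgroup `ζ ℚ` of `ℂ`. -/
def ratLine (ζ : ℂ) : AddSubgroup ℂ where
  carrier := {x | ∃ q : ℚ, x = ζ * q}
  zero_mem' := ⟨0, by simp⟩
  add_mem' := by
    rintro _ _ ⟨q₁, rfl⟩ ⟨q₂, rfl⟩
    exact ⟨q₁ + q₂, by push_cast; ring⟩
  neg_mem' := by
    rintro _ ⟨q, rfl⟩
    exact ⟨-q, by push_cast; ring⟩

/-- Arithmetic end game: a rational `t` with `t ^ m = p ^ (12 (m - 1))` forces `m ∣ 12`. -/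
lemma dvd_twelve_of_rat_pow {p : ℕ} (hp : p.Prime) {m : ℕ} (hm : 0 < m) (t : ℚ)
    (h : t ^ m = (p : ℚ) ^ (12 * (m - 1))) : m ∣ 12 := by
  haveI : Fact p.Prime := ⟨hp⟩
  have h1 := congrArg (padicValRat p) h
  rw [padicValRat.pow, padicValRat.pow, padicValRat.self hp.one_lt] at h1
  have h3 : ((12 * (m - 1) : ℕ) : ℤ) = 12 * (m : ℤ) - 12 := by
    rw [Nat.cast_mul, Nat.cast_sub (by omega)]
    push_cast
    ring
  rw [h3] at h1
  have h2 : (m : ℤ) ∣ 12 := ⟨12 - padicValRat p t, by linear_combination h1⟩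
  exact_mod_cast h2

/-- **Ogg's bound**, for the form `F = H Δ(p·)`. -/
theorem dvd_twelve_of_form {p : ℕ} [Fact p.Prime]
    (T : Fermat.Agent.S16.CuspZeroData p (Fact.out : p.Prime).ne_zero)
    (m : ℕ) (hm : 2 ≤ m) (F : ModularForm (Gamma0 p) 12)
    (hfun : (⇑F : ℍ → ℂ) ^ m =
      ModularForm.discriminant * dil p ModularForm.discriminant ^ (m - 1)) :
    m ∣ 12 := by
  have hpp : p.Prime := Fact.out
  have hp0 : p ≠ 0 := hpp.ne_zero
  have hp2 : 2 ≤ p := hpp.two_le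
  have hm0 : 0 < m := by omega
  haveI : NeZero p := ⟨hp0⟩
  set A := qExpansion 1 F with hA
  set B := T.Z 12 F with hB
  set δ := qExpansion 1 ModularForm.discriminant with hδ
  have hFgood : IsGood (⇑F : ℍ → ℂ) := isGood_of_modularFormClass (one_mem_strictPeriods_G0 p) F
  have hΔgood := isGood_discriminant
  have hΔpgood : IsGood (dil p ModularForm.discriminant) := isGood_dil hp0 hΔgood
  -- (1a) the identity of `q`-expansions at `∞`
  have h1a : A ^ m = δ * (PowerSeries.expand p hp0 δ) ^ (m - 1) := by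
    have h := congrArg (qExpansion 1) hfun
    rw [hFgood.qExpansion_pow, hΔgood.qExpansion_mul (hΔpgood.pow (m - 1)),
      hΔpgood.qExpansion_pow, qExpansion_dil hp0 hΔgood] at h
    exact h
  -- (1b) the identity of expansions at `0`
  have h1b : B ^ m = PowerSeries.expand p hp0 δ * (((p : ℂ) ^ (12 : ℤ))⁻¹ • δ) ^ (m - 1) := by
    have hL : ZRel T (12 * m) ((⇑F : ℍ → ℂ) ^ m) (B ^ m) := (ZRel.of_form (T := T) F).pow m
    have hΔ : IsMF 𝒮ℒ 12 ModularForm.discriminant := (IsCF.of CuspForm.discriminant).isMF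
    obtain ⟨E, hE⟩ := hΔ
    have hR : ZRel T (12 + 12 * ((m - 1 : ℕ) : ℤ))
        (ModularForm.discriminant * dil p ModularForm.discriminant ^ (m - 1))
        (PowerSeries.expand p hp0 δ * (((p : ℂ) ^ (12 : ℤ))⁻¹ • δ) ^ (m - 1)) := by
      have h1 := ZRel.levelOne (T := T) E
      rw [hE] at h1
      exact h1.mul (ZRel.dil_discriminant.pow (m - 1))
    have hk : (12 + 12 * ((m - 1 : ℕ) : ℤ)) = 12 * (m : ℤ) := by
      rw [Nat.cast_sub (by omega)]
      push_cast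
      ring
    exact (hL.congr hfun).unique (hR.cast hk)
  -- rewrite with `δ = X u`
  have hδX : δ = PowerSeries.X * uC := qExp_discriminant
  have hexp : PowerSeries.expand p hp0 δ = PowerSeries.X ^ p * PowerSeries.expand p hp0 uC := by
    rw [hδX, map_mul, PowerSeries.expand_X]
  have hfixu : AutFix uC := AutFix.of_int _
  have hfixeu : AutFix (PowerSeries.expand p hp0 uC) := hfixu.expand p hp0
  have hceu : PowerSeries.constantCoeff (PowerSeries.expand p hp0 uC) = 1 := by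
    rw [PowerSeries.constantCoeff_expand, constantCoeff_uC]
  -- structure of `A`
  have hAm : A ^ m = (1 : ℂ) • (PowerSeries.X ^ (1 + p * (m - 1)) *
      (uC * PowerSeries.expand p hp0 uC ^ (m - 1))) := by
    rw [one_smul, h1a, hexp, hδX, mul_pow, ← pow_mul, pow_add, pow_one]
    ring
  obtain ⟨NA, ζ, hNA, hζm, hAlead, hAlow, -⟩ := root_structure hm0 _ 1 one_ne_zero
    (hfixu.mul (hfixeu.pow (m - 1)))
    (by rw [map_mul, map_pow, constantCoeff_uC, hceu]; simp) hAm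
  -- structure of `B`
  have hpow12 : ((p : ℂ) ^ (12 : ℤ)) ≠ 0 := zpow_ne_zero _ (Nat.cast_ne_zero.mpr hp0)
  have hκ : (((p : ℂ) ^ (12 : ℤ))⁻¹) ^ (m - 1) ≠ 0 := pow_ne_zero _ (inv_ne_zero hpow12)
  have hBm : B ^ m = ((((p : ℂ) ^ (12 : ℤ))⁻¹) ^ (m - 1)) • (PowerSeries.X ^ (p + (m - 1)) *
      (PowerSeries.expand p hp0 uC * uC ^ (m - 1))) := by
    rw [h1b, hexp, hδX, smul_pow, mul_pow, pow_add, mul_smul_comm]
    congr 1
    ring
  obtain ⟨NB, c, hNB, hcm, -, hBlow, hBcoeff⟩ := root_structure hm0 _ _ hκ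
    (hfixeu.mul (hfixu.pow (m - 1)))
    (by rw [map_mul, map_pow, constantCoeff_uC, hceu]; simp) hBm
  -- orders
  have hNA2 : 2 ≤ NA := by
    by_contra hcon
    push Not at hcon
    have h1 : NA * m ≤ 1 * m := Nat.mul_le_mul_right m (by omega)
    have h2 : 2 * (m - 1) ≤ p * (m - 1) := Nat.mul_le_mul_right _ hp2
    omega
  have hNB1 : 1 ≤ NB := by
    rcases Nat.eq_zero_or_pos NB with h0 | h
    · rw [h0] at hNB
      omega
    · exact h
  have hc0 : c ≠ 0 := by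
    rintro rfl
    rw [zero_pow hm0.ne'] at hcm
    exact hκ hcm.symm
  -- the trace
  obtain ⟨e, he⟩ := T.trace_levelOne 12 F
  have hecoeff : ∀ n : ℕ, (qExpansion 1 e).coeff n = A.coeff n + (p : ℂ) * B.coeff (p * n) := by
    intro n
    rw [he]
    simp [hA, hB]
  have hBM : ∀ n : ℕ, (p : ℂ) * B.coeff n ∈ ratLine c := fun n => by
    obtain ⟨q, hq⟩ := hBcoeff n
    exact ⟨p * q, by rw [hq]; push_cast; ring⟩
  have heM : ∀ n : ℕ, (qExpansion 1 e).coeff n ∈ ratLine c := by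
    refine levelOne_coeff_mem 12 e (ratLine c) fun j hj => ?_
    have hj1 : j ≤ 1 := by
      have : (j : ℤ) ≤ 1 := by linarith
      exact_mod_cast this
    rw [hecoeff, hAlow j (by omega), zero_add]
    exact hBM _
  have hAM : ∀ n : ℕ, A.coeff n ∈ ratLine c := fun n => by
    have := (ratLine c).sub_mem (heM n) (hBM (p * n))
    rwa [hecoeff, add_sub_cancel_right] at this
  -- `ζ ∈ c ℚ`
  obtain ⟨t, ht⟩ := hAM NA
  rw [hAlead] at ht
  have htm : t ^ m = (p : ℚ) ^ (12 * (m - 1)) := by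
    have h1 : ((t ^ m : ℚ) : ℂ) = (((p : ℚ) ^ (12 * (m - 1)) : ℚ) : ℂ) := by
      push_cast
      have h2 : ζ ^ m = (c * t) ^ m := by rw [ht]
      rw [mul_pow, hζm, hcm] at h2
      have h3 : ((p : ℂ) ^ (12 : ℤ)) ^ (m - 1) * (((p : ℂ) ^ (12 : ℤ))⁻¹ ^ (m - 1) * (t : ℂ) ^ m) =
          (t : ℂ) ^ m := by
        rw [← mul_assoc, ← mul_pow, mul_inv_cancel₀ hpow12, one_pow, one_mul]
      rw [← h3, ← h2, mul_one, pow_mul]
      norm_cast
    exact_mod_cast h1
  exact dvd_twelve_of_rat_pow hpp hm0 t htm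

end Fermat.Agent.S16.LB.Ogg
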